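import Fermat.Agent.V.FO.Def
import Fermat.Agent.V.Univ.AlgClosed
import Fermat.Prelude.Def_AlgebraicCurve_DivisorClassGroup
import Fermat.Prelude.Def_AlgebraicCurve_IsCurveOver
import Fermat.Prelude.Def_AlgebraicCurve_Repartitions

/-!
# Program V (S27), half B, route M (Lefschetz): the FINAL step, spec-first

Owner: helper22.  Prefix `v27B_`.

The logic of the last step, with the leaves as explicit hypotheses.

* `v27B_card_of_bounds` : a type `T` with no injection `Fin (M+1) → T`, no surjection
  `Fin (M-1) → T`, and an element, has `Nat.card T = M` (covers the traps: `T` infinite gives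
  `Nat.card T = 0`; `M = 1`).
* `v27B_card_of_transfer` : two uniformly definable predicates `ΦU`, `ΦL` such that over the
  characteristic-zero field `K` an injection `Fin (M+1) → Pic0[n]` gives a solution of `ΦU` and a
  surjection `Fin (M-1) → Pic0[n]` gives a solution of `ΦL`, and which have no solutions over some
  algebraically closed field of characteristic `p` for all `p ∉ bad` : then `|Pic0[n]| = M`.
* `v27B_card_of_sem` : the same with the characteristic-`p` side in SEMANTIC form : a solution of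
  `ΦU` (resp. `ΦL`) over `k = 𝔽_p-bar` yields a Prelude curve `Ft / k` of genus `g` with an injection
  `Fin (M+1) → Pic0(Ft)[n]` (resp. a surjection from `Fin (M-1)`), and Part A counts `Pic0(Ft)[n]`.
-/

set_option autoImplicit false
set_option linter.unusedSectionVars false
set_option linter.unusedVariables false
set_option linter.style.haveILetI false

namespace Fermat.Agent.V

open AlgebraicCurve

universe u v

/-! ### Counting -/

/-- no injection from `Fin (M+1)` : finite of cardinality at most `M` -/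
theorem v27B_card_le_of_no_inj {T : Type*} (M : ℕ)
    (h : ∀ x : Fin (M + 1) → T, ¬ Function.Injective x) : Finite T ∧ Nat.card T ≤ M := by
  have hfin : Finite T := by
    by_contra hinf
    rw [not_finite_iff_infinite] at hinf
    exact h (fun i => Infinite.natEmbedding T (i : ℕ))
      (fun a b hab => Fin.val_injective ((Infinite.natEmbedding T).injective hab))
  refine ⟨hfin, ?_⟩
  by_contra hlt
  push Not at hlt
  haveI := Fintype.ofFinite T
  rw [Nat.card_eq_fintype_card] at hlt
  have hle : Fintype.card (Fin (M + 1)) ≤ Fintype.card T := by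
    rw [Fintype.card_fin]; omega
  obtain ⟨f⟩ := Function.Embedding.nonempty_of_card_le hle
  exact h f f.injective

/-- no surjection from `Fin (M-1)` onto a nonempty finite type : cardinality at least `M` -/
theorem v27B_le_card_of_no_surj {T : Type*} [Finite T] [Nonempty T] (M : ℕ)
    (h : ∀ x : Fin (M - 1) → T, ¬ Function.Surjective x) : M ≤ Nat.card T := by
  by_contra hlt
  push Not at hlt
  haveI := Fintype.ofFinite T
  rw [Nat.card_eq_fintype_card] at hlt
  have hpos : 0 < Fintype.card T := Fintype.card_pos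
  have hle : Fintype.card T ≤ Fintype.card (Fin (M - 1)) := by
    rw [Fintype.card_fin]; omega
  obtain ⟨f⟩ := Function.Embedding.nonempty_of_card_le hle
  obtain ⟨t₀⟩ := ‹Nonempty T›
  exact h (Function.invFun f) (Function.invFun_surjective f.injective)

/-- the counting principle of the final step -/
theorem v27B_card_of_bounds {T : Type*} [Nonempty T] (M : ℕ)
    (hinj : ∀ x : Fin (M + 1) → T, ¬ Function.Injective x)
    (hsurj : ∀ x : Fin (M - 1) → T, ¬ Function.Surjective x) : Nat.card T = M := by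
  obtain ⟨hfin, hle⟩ := v27B_card_le_of_no_inj M hinj
  exact le_antisymm hle (v27B_le_card_of_no_surj M hsurj)

/-! ### Transfer -/

/-- **FINAL, transfer form.**  `ΦU`, `ΦL` uniformly definable; over `K` (characteristic `0`) an
injection `Fin (M+1) → Pic0(F)[n]` yields a solution of `ΦU` and a surjection
`Fin (M-1) → Pic0(F)[n]` yields a solution of `ΦL`; for every prime `p ∉ bad` both are without
solutions over SOME algebraically closed field of characteristic `p`.  Then `|Pic0(F)[n]| = M`. -/
theorem v27B_card_of_transfer {K : Type u} {F : Type v} [Field K] [Field F] [Algebra K F]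
    [IsAlgClosed K] [CharZero K] (n M : ℕ)
    {αU αL : Type} [Finite αU] [Finite αL]
    {ΦU : ∀ (K : Type u) [Field K], (αU → K) → Prop} (hU : V27Def ΦU)
    {ΦL : ∀ (K : Type u) [Field K], (αL → K) → Prop} (hL : V27Def ΦL)
    (bad : Finset ℕ)
    (hU0 : ∀ x : Fin (M + 1) → Pic0.torsion K F n, Function.Injective x → ∃ w : αU → K, ΦU K w)
    (hL0 : ∀ x : Fin (M - 1) → Pic0.torsion K F n, Function.Surjective x → ∃ w : αL → K, ΦL K w)
    (hUp : ∀ (p : ℕ) [Fact p.Prime], p ∉ bad → ∃ (k : Type u) (_ : Field k) (_ : CharP k p)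
      (_ : IsAlgClosed k), ∀ w : αU → k, ¬ ΦU k w)
    (hLp : ∀ (p : ℕ) [Fact p.Prime], p ∉ bad → ∃ (k : Type u) (_ : Field k) (_ : CharP k p)
      (_ : IsAlgClosed k), ∀ w : αL → k, ¬ ΦL k w) :
    Nat.card (Pic0.torsion K F n) = M := by
  have hUK : ∀ w : αU → K, ¬ ΦU K w := fun w => hU.transfer bad hUp K w
  have hLK : ∀ w : αL → K, ¬ ΦL K w := fun w => hL.transfer bad hLp K w
  haveI : Nonempty (Pic0.torsion K F n) := ⟨0⟩
  refine v27B_card_of_bounds M (fun x hx => ?_) (fun x hx => ?_)
  · obtain ⟨w, hw⟩ := hU0 x hx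
    exact hUK w hw
  · obtain ⟨w, hw⟩ := hL0 x hx
    exact hLK w hw

/-- a type of cardinality `M > 0` admits no injection from `Fin (M+1)` -/
theorem v27B_no_inj_of_card {T : Type*} {M : ℕ} (hM : 0 < M) (hT : Nat.card T = M)
    (x : Fin (M + 1) → T) : ¬ Function.Injective x := by
  intro hx
  haveI : Finite T := Nat.finite_of_card_ne_zero (by omega)
  have := Nat.card_le_card_of_injective x hx
  rw [Nat.card_fin, hT] at this
  omega

/-- a type of cardinality `M` admits no surjection from `Fin (M-1)` (`M > 0`) -/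
theorem v27B_no_surj_of_card {T : Type*} {M : ℕ} (hM : 0 < M) (hT : Nat.card T = M)
    (x : Fin (M - 1) → T) : ¬ Function.Surjective x := by
  intro hx
  have := Nat.card_le_card_of_surjective x hx
  rw [Nat.card_fin, hT] at this
  omega

/-- **FINAL, semantic form.**  As `v27B_card_of_transfer` with the characteristic-`p` side in
semantic form, over `k = V27uFpBar p` (an algebraic closure of `𝔽_p` in the universe of `K`) :
`hA` is Part A (`v27A_main`), `hUp` / `hLp` say that a solution of `ΦU` / `ΦL` over `k` produces a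
Prelude curve `Ft / k` of genus `g` together with `M+1` pairwise distinct `n`-torsion classes,
resp. `M-1` classes exhausting the `n`-torsion (`n = ℓ^j`, `M = ℓ^(2gj)`). -/
theorem v27B_card_of_sem {K : Type u} {F : Type v} [Field K] [Field F] [Algebra K F]
    [IsAlgClosed K] [CharZero K] (ℓ : ℕ) [Fact ℓ.Prime] (j g : ℕ)
    {αU αL : Type} [Finite αU] [Finite αL]
    {ΦU : ∀ (K : Type u) [Field K], (αU → K) → Prop} (hU : V27Def ΦU)
    {ΦL : ∀ (K : Type u) [Field K], (αL → K) → Prop} (hL : V27Def ΦL)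
    (bad : Finset ℕ) (hℓ : ℓ ∈ bad)
    (hA : ∀ (p : ℕ) [Fact p.Prime], ℓ ≠ p → ∀ (Ft : Type u) [Field Ft]
      [Algebra (V27uFpBar.{u} p) Ft] [IsCurveOver (V27uFpBar.{u} p) Ft]
      [Algebra.EssFiniteType (V27uFpBar.{u} p) Ft],
      Nat.card (Pic0.torsion (V27uFpBar.{u} p) Ft (ℓ ^ j)) =
        ℓ ^ (2 * genusFF (V27uFpBar.{u} p) Ft * j))
    (hU0 : ∀ x : Fin (ℓ ^ (2 * g * j) + 1) → Pic0.torsion K F (ℓ ^ j), Function.Injective x →
      ∃ w : αU → K, ΦU K w)
    (hL0 : ∀ x : Fin (ℓ ^ (2 * g * j) - 1) → Pic0.torsion K F (ℓ ^ j), Function.Surjective x →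
      ∃ w : αL → K, ΦL K w)
    (hUp : ∀ (p : ℕ) [Fact p.Prime], p ∉ bad → ∀ w : αU → V27uFpBar.{u} p, ΦU _ w →
      ∃ (Ft : Type u) (_ : Field Ft) (_ : Algebra (V27uFpBar.{u} p) Ft)
        (_ : IsCurveOver (V27uFpBar.{u} p) Ft) (_ : Algebra.EssFiniteType (V27uFpBar.{u} p) Ft),
        genusFF (V27uFpBar.{u} p) Ft = g ∧
        ∃ x : Fin (ℓ ^ (2 * g * j) + 1) → Pic0.torsion (V27uFpBar.{u} p) Ft (ℓ ^ j),
          Function.Injective x)
    (hLp : ∀ (p : ℕ) [Fact p.Prime], p ∉ bad → ∀ w : αL → V27uFpBar.{u} p, ΦL _ w →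
      ∃ (Ft : Type u) (_ : Field Ft) (_ : Algebra (V27uFpBar.{u} p) Ft)
        (_ : IsCurveOver (V27uFpBar.{u} p) Ft) (_ : Algebra.EssFiniteType (V27uFpBar.{u} p) Ft),
        genusFF (V27uFpBar.{u} p) Ft = g ∧
        ∃ x : Fin (ℓ ^ (2 * g * j) - 1) → Pic0.torsion (V27uFpBar.{u} p) Ft (ℓ ^ j),
          Function.Surjective x) :
    Nat.card (Pic0.torsion K F (ℓ ^ j)) = ℓ ^ (2 * g * j) := by
  have hMpos : 0 < ℓ ^ (2 * g * j) := pow_pos (Fact.out : ℓ.Prime).pos _
  refine v27B_card_of_transfer (ℓ ^ j) (ℓ ^ (2 * g * j)) hU hL bad hU0 hL0 ?_ ?_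
  · intro p hp hpbad
    have hne : ℓ ≠ p := fun h => hpbad (h ▸ hℓ)
    refine ⟨V27uFpBar.{u} p, inferInstance, inferInstance, inferInstance, fun w hw => ?_⟩
    obtain ⟨Ft, i1, i2, i3, i4, hg, x, hx⟩ := hUp p hpbad w hw
    have hcard := hA p hne Ft
    rw [hg] at hcard
    exact v27B_no_inj_of_card hMpos hcard x hx
  · intro p hp hpbad
    have hne : ℓ ≠ p := fun h => hpbad (h ▸ hℓ)
    refine ⟨V27uFpBar.{u} p, inferInstance, inferInstance, inferInstance, fun w hw => ?_⟩
    obtain ⟨Ft, i1, i2, i3, i4, hg, x, hx⟩ := hLp p hpbad w hw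
    have hcard := hA p hne Ft
    rw [hg] at hcard
    exact v27B_no_surj_of_card hMpos hcard x hx

end Fermat.Agent.V
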